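/-
Cluster E' (Mazur), S12 side, seat DUAL (helper4).
Group theory: the kernel of `ψ ∘ φ` is the full `p`-torsion.
-/
import Mathlib

set_option autoImplicit false
set_option linter.style.haveILetI false

namespace Fermat.Agent.ED

variable {G H : Type*} [AddCommGroup G] [AddCommGroup H]

/-- If `φ` has kernel of prime order `p`, `P₀` is a `p`-torsion point outside `ker φ` and the
`p`-torsion `T` of `G` has `p²` elements, then `φ⁻¹ ⟨φ P₀⟩ = T`. -/
theorem comap_zmultiples_eq_torsion (φ : G →+ H) {p : ℕ} (hp : p.Prime)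
    (hker : Nat.card φ.ker = p) {P₀ : G} (hP₀ : p • P₀ = 0) (hφP₀ : φ P₀ ≠ 0)
    (T : AddSubgroup G) (hT : ∀ x, x ∈ T ↔ p • x = 0) (hcard : Nat.card T = p ^ 2) :
    AddSubgroup.comap φ (AddSubgroup.zmultiples (φ P₀)) = T := by
  set K := AddSubgroup.comap φ (AddSubgroup.zmultiples (φ P₀)) with hK
  have hkerT : ∀ y ∈ φ.ker, p • y = 0 := by
    intro y hy
    have h := card_nsmul_eq_zero' (G := φ.ker) (x := ⟨y, hy⟩)
    rw [hker] at h
    have := congrArg Subtype.val h
    simpa using this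
  have hKT : K ≤ T := by
    intro x hx
    rw [hT]
    obtain ⟨j, hj⟩ := AddSubgroup.mem_zmultiples_iff.mp (AddSubgroup.mem_comap.mp hx)
    have hy : x - j • P₀ ∈ φ.ker := by
      rw [AddMonoidHom.mem_ker, map_sub, map_zsmul, hj, sub_self]
    have h1 := hkerT _ hy
    have h2 : p • x = p • (x - j • P₀) + j • (p • P₀) := by
      rw [nsmul_sub, smul_comm j p P₀]
      abel
    rw [h2, h1, hP₀, smul_zero, add_zero]
  haveI : Finite T := Nat.finite_of_card_ne_zero (by rw [hcard]; exact pow_ne_zero _ hp.ne_zero)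
  haveI : Finite K := Finite.of_injective (fun x : K => (⟨x.1, hKT x.2⟩ : T))
    (fun a b h => Subtype.ext (congrArg (fun t : T => t.1) h))
  have hkerK : φ.ker ≤ K := by
    intro x hx
    rw [hK, AddSubgroup.mem_comap, AddMonoidHom.mem_ker.mp hx]
    exact zero_mem _
  have hP₀K : P₀ ∈ K := AddSubgroup.mem_comap.mpr (AddSubgroup.mem_zmultiples _)
  have hP₀ker : P₀ ∉ φ.ker := fun h => hφP₀ (AddMonoidHom.mem_ker.mp h)
  have hd1 : Nat.card K ∣ p ^ 2 := hcard ▸ AddSubgroup.card_dvd_of_le hKT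
  have hd2 : p ∣ Nat.card K := hker ▸ AddSubgroup.card_dvd_of_le hkerK
  obtain ⟨m, hm, hKm⟩ := (Nat.dvd_prime_pow hp).mp hd1
  have hm2 : m = 2 := by
    rcases Nat.lt_or_ge m 2 with hlt | hge
    · exfalso
      interval_cases m
      · rw [hKm, pow_zero] at hd2
        exact hp.one_lt.ne' (Nat.dvd_one.mp hd2)
      · rw [pow_one] at hKm
        have : φ.ker = K :=
          AddSubgroup.eq_of_le_of_card_ge hkerK (by rw [hKm, hker])
        exact hP₀ker (this ▸ hP₀K)
    · omega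
  rw [hm2] at hKm
  exact AddSubgroup.eq_of_le_of_card_ge hKT (by rw [hKm, hcard])

/-- a coset of the `p`-torsion not contained in it has a point of order `> p` -/
theorem exists_add_torsion_nsmul_ne_zero {p : ℕ} (hp : p.Prime) {P T₀ : G} (hP : p • P ≠ 0)
    (hT₀ : p • T₀ = 0) (hT₀0 : T₀ ≠ 0) :
    ∃ T : G, p • T = 0 ∧ ∀ j : ℕ, 1 ≤ j → j ≤ p → j • (P + T) ≠ 0 := by
  by_cases hA : ∀ j : ℕ, 1 ≤ j → j ≤ p → j • P ≠ 0
  · exact ⟨0, smul_zero _, fun j hj hj' => by rw [add_zero]; exact hA j hj hj'⟩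
  · push Not at hA
    obtain ⟨j₀, hj₀, hj₀p, hj₀P⟩ := hA
    have hj₀lt : j₀ < p := lt_of_le_of_ne hj₀p (fun h => hP (h ▸ hj₀P))
    haveI : Fact p.Prime := ⟨hp⟩
    have hord : addOrderOf T₀ = p := addOrderOf_eq_prime hT₀ hT₀0
    refine ⟨T₀, hT₀, fun j hj hjp hzero => ?_⟩
    have h1 : j • P = -(j • T₀) := by
      rw [nsmul_add] at hzero
      exact eq_neg_of_add_eq_zero_left hzero
    have h2 : (j₀ * j) • T₀ = 0 := by
      have : (j₀ * j) • P = 0 := by rw [mul_nsmul, hj₀P, smul_zero]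
      rw [mul_nsmul', h1] at this
      rw [mul_nsmul']
      simpa using this
    have h3 : p ∣ j₀ * j := hord ▸ addOrderOf_dvd_of_nsmul_eq_zero h2
    rcases (Nat.Prime.dvd_mul hp).mp h3 with h | h
    · exact absurd (Nat.le_of_dvd (by omega) h) (by omega)
    · have hjp' : j = p := le_antisymm hjp (Nat.le_of_dvd (by omega) h)
      rw [hjp', nsmul_add, hT₀, add_zero] at hzero
      exact hP hzero

end Fermat.Agent.ED
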