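/-
Cluster E' (Mazur), S12 side, seat DUAL (helper4).
Pure algebra: composition of polynomial fractions and a partial-fraction sum as one fraction.
-/
import Mathlib

set_option autoImplicit false
set_option linter.unusedSectionVars false

namespace Fermat.Agent.ED

open Polynomial

variable {k : Type*} [Field k]

/-- homogenisation: `polyHom f m n d = Σ_{i ≤ m} f_i n^i d^(m-i)`, so that
`polyHom f m n d = d^m · f (n / d)` -/
noncomputable def polyHom (f : k[X]) (m : ℕ) (n d : k[X]) : k[X] :=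
  ∑ i ∈ Finset.range (m + 1), C (f.coeff i) * n ^ i * d ^ (m - i)

theorem eval_polyHom (f : k[X]) {m : ℕ} (hm : f.natDegree ≤ m) (n d : k[X]) {x : k}
    (hd : d.eval x ≠ 0) :
    (polyHom f m n d).eval x = d.eval x ^ m * f.eval (n.eval x / d.eval x) := by
  rw [polyHom, eval_finsetSum, eval_eq_sum_range' (Nat.lt_succ_of_le hm), Finset.mul_sum]
  refine Finset.sum_congr rfl fun i hi => ?_
  have hi' : i ≤ m := Nat.lt_succ_iff.mp (Finset.mem_range.mp hi)
  simp only [eval_mul, eval_C, eval_pow]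
  have e : d.eval x ^ m = d.eval x ^ i * d.eval x ^ (m - i) := by
    rw [← pow_add, Nat.add_sub_cancel' hi']
  rw [e, div_pow]
  field_simp

/-- the composite of two polynomial fractions as a polynomial fraction -/
theorem eval_polyHom_div (f g : k[X]) {m : ℕ} (hf : f.natDegree ≤ m) (hg : g.natDegree ≤ m)
    (n d : k[X]) {x : k} (hd : d.eval x ≠ 0) (hg0 : g.eval (n.eval x / d.eval x) ≠ 0) :
    (polyHom g m n d).eval x ≠ 0 ∧
      (polyHom f m n d).eval x / (polyHom g m n d).eval x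
        = f.eval (n.eval x / d.eval x) / g.eval (n.eval x / d.eval x) := by
  rw [eval_polyHom f hf n d hd, eval_polyHom g hg n d hd]
  have hdm : d.eval x ^ m ≠ 0 := pow_ne_zero _ hd
  refine ⟨mul_ne_zero hdm hg0, ?_⟩
  field_simp

section PartialFractions

variable {ι : Type*} [DecidableEq ι]

/-- common denominator `∏ (X - c_Q)²` -/
noncomputable def pfD (S : Finset ι) (c : ι → k) : k[X] := ∏ Q ∈ S, (X - C (c Q)) ^ 2

/-- numerator of `Σ (a_Q / (X - c_Q) + b_Q / (X - c_Q)²)` -/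
noncomputable def pfN (S : Finset ι) (a b c : ι → k) : k[X] :=
  ∑ Q ∈ S, (C (a Q) * (X - C (c Q)) + C (b Q)) * ∏ Q' ∈ S.erase Q, (X - C (c Q')) ^ 2

theorem eval_pfD (S : Finset ι) (c : ι → k) (x : k) :
    (pfD S c).eval x = ∏ Q ∈ S, (x - c Q) ^ 2 := by
  simp [pfD, eval_prod]

theorem eval_pfD_ne_zero (S : Finset ι) (c : ι → k) {x : k} (hx : ∀ Q ∈ S, x ≠ c Q) :
    (pfD S c).eval x ≠ 0 := by
  rw [eval_pfD]
  exact Finset.prod_ne_zero_iff.mpr fun Q hQ => pow_ne_zero _ (sub_ne_zero.mpr (hx Q hQ))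

theorem sum_partialFractions (S : Finset ι) (a b c : ι → k) {x : k} (hx : ∀ Q ∈ S, x ≠ c Q) :
    ∑ Q ∈ S, (a Q / (x - c Q) + b Q / (x - c Q) ^ 2) = (pfN S a b c).eval x / (pfD S c).eval x := by
  have hD := eval_pfD_ne_zero S c hx
  rw [pfN, eval_finsetSum, Finset.sum_div]
  refine Finset.sum_congr rfl fun Q hQ => ?_
  have hxQ : x - c Q ≠ 0 := sub_ne_zero.mpr (hx Q hQ)
  have hprod : (pfD S c).eval x = (x - c Q) ^ 2 * ∏ Q' ∈ S.erase Q, (x - c Q') ^ 2 := by
    rw [eval_pfD, Finset.mul_prod_erase S (fun Q' => (x - c Q') ^ 2) hQ]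
  have hE : (∏ Q' ∈ S.erase Q, (x - c Q') ^ 2) ≠ 0 :=
    Finset.prod_ne_zero_iff.mpr fun Q' hQ' =>
      pow_ne_zero _ (sub_ne_zero.mpr (hx Q' (Finset.mem_of_mem_erase hQ')))
  rw [hprod]
  simp only [eval_mul, eval_add, eval_C, eval_sub, eval_X, eval_prod, eval_pow]
  field_simp

end PartialFractions

end Fermat.Agent.ED
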