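/-
Cluster E' (Mazur), S12 side, seat DUAL (helper4).
The ladder denominator `G_n` of multiplication by `n` (Lib/Torsion/Ladder) does not vanish at
`x(P)` as soon as `j • P ≠ 0` for all `1 ≤ j ≤ n`; consequence: the WEAK `x`-map of `[n]`.
-/
import Mathlib
import Fermat.Agent.Lib.Torsion.Ladder

set_option autoImplicit false

namespace Fermat.Agent.ED

open Polynomial S05H65 Fermat.Agent.Torsion WeierstrassCurve

variable {K : Type*} [Field K] [DecidableEq K] {W : WeierstrassCurve.Affine K}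

/-- the step of the induction -/
lemma ladG_eval_ne_zero_step {P : W.Point} (hP : P ≠ 0) (k : ℕ)
    (h1 : (ladG W (k + 1)).eval (px P) ≠ 0) (h2 : (ladG W (k + 2)).eval (px P) ≠ 0)
    (hk1 : (k + 1) • P ≠ 0) (hk2 : (k + 2) • P ≠ 0) (hk3 : (k + 3) • P ≠ 0) :
    (ladG W (k + 3)).eval (px P) ≠ 0 := by
  have e3 : (k + 3) • P = (k + 2) • P + P := succ_nsmul P (k + 2)
  have e1 : (k + 2) • P = (k + 1) • P + P := succ_nsmul P (k + 1)
  have hF2 := ladF_eval_eq hP (n := k + 2) (by omega) hk2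
  have hpx : px ((k + 2) • P) ≠ px P := by
    intro hpx
    rcases eq_or_eq_neg_of_px_eq hk2 hP hpx with hpos | hneg
    · apply hk1
      have : (k + 1) • P + P = 0 + P := by rw [← e1, hpos, zero_add]
      exact add_right_cancel this
    · apply hk3
      rw [e3, hneg, neg_add_cancel]
  rw [ladG_add_three, eval_mul, eval_ladD, hF2]
  refine mul_ne_zero (pow_ne_zero _ ?_) h1
  have : px ((k + 2) • P) * (ladG W (k + 2)).eval (px P) - px P * (ladG W (k + 2)).eval (px P)
      = (px ((k + 2) • P) - px P) * (ladG W (k + 2)).eval (px P) := by ring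
  rw [this]
  exact mul_ne_zero (sub_ne_zero.mpr hpx) h2

/-- **the ladder denominator does not vanish at points of order `> n`** -/
theorem ladG_eval_ne_zero {P : W.Point} (n : ℕ) (hn : 1 ≤ n)
    (h : ∀ j : ℕ, 1 ≤ j → j ≤ n → j • P ≠ 0) : (ladG W n).eval (px P) ≠ 0 := by
  have hP : P ≠ 0 := by
    have := h 1 le_rfl hn
    rwa [one_smul] at this
  have key : ∀ k : ℕ,
      ((∀ j : ℕ, 1 ≤ j → j ≤ k + 1 → j • P ≠ 0) → (ladG W (k + 1)).eval (px P) ≠ 0) ∧
      ((∀ j : ℕ, 1 ≤ j → j ≤ k + 2 → j • P ≠ 0) → (ladG W (k + 2)).eval (px P) ≠ 0) := by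
    intro k
    induction k with
    | zero =>
      refine ⟨fun _ => by simp, fun h2 => ?_⟩
      have h22 := h2 2 (by omega) (by omega)
      rw [two_nsmul] at h22
      simp only [zero_add, ladG_two, eval_ladG2]
      exact fun h0 => h22 ((add_self_eq_zero_iff hP).mpr h0)
    | succ k ih =>
      refine ⟨fun h2 => ?_, fun h3 => ?_⟩
      · exact ih.2 h2
      · have a1 := ih.1 (fun j hj hj' => h3 j hj (by omega))
        have a2 := ih.2 (fun j hj hj' => h3 j hj (by omega))
        exact ladG_eval_ne_zero_step hP k a1 a2 (h3 _ (by omega) (by omega))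
          (h3 _ (by omega) (by omega)) (h3 _ (by omega) (by omega))
  obtain ⟨k, rfl⟩ : ∃ k, n = k + 1 := ⟨n - 1, by omega⟩
  exact (key k).1 h

end Fermat.Agent.ED
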