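/-
Cluster E' (Mazur), S12 side, seat DUAL (helper4).
`x`-maps (shapes `HasXMap`, `HasXMapW` of helper77's E/S12/Uniq.lean): the weak `x`-map of `[n]`,
the strong `x`-map of a Vélu isogeny, composition.
-/
import Mathlib
import Fermat.Agent.E.S12.VeluSpec
import Fermat.Agent.E.S12.Uniq
import Fermat.Agent.E.S12.Dual.LadderNZ
import Fermat.Agent.E.S12.Dual.Frac
import Fermat.Agent.Lib.Torsion.LadderDegree

set_option autoImplicit false
set_option linter.unusedSectionVars false

open WeierstrassCurve WeierstrassCurve.Affine Polynomial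

namespace Fermat.Agent.ED

open Fermat.Agent.EV Fermat.Agent.EU Fermat.Agent.Torsion S05H65

section Weak

variable {k : Type*} [Field k] [DecidableEq k]

lemma ptX_eq_px {W : Affine k} (P : W.Point) : ptX P = px P := by
  cases P <;> rfl

lemma some_congr_x {W : Affine k} {x x' y : k} (e : x = x') (h : W.Nonsingular x y) :
    ∃ h' : W.Nonsingular x' y, (Point.some x y h : W.Point) = Point.some x' y h' := by
  subst e
  exact ⟨h, rfl⟩

lemma exists_some_of_ne_zero {W : Affine k} {P : W.Point} (hP : P ≠ 0) :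
    ∃ (x y : k) (h : W.Nonsingular x y), P = .some x y h := by
  rcases P with _ | ⟨x, y, h⟩
  · exact absurd rfl hP
  · exact ⟨x, y, h, rfl⟩

/-- an affine point whose `x`-coordinate is the `x`-coordinate of a nonzero point of a subgroup
lies in the subgroup -/
lemma mem_of_px_eq {W : Affine k} (K : AddSubgroup W.Point) {P T : W.Point} (hP : P ≠ 0)
    (hT : T ∈ K) (hT0 : T ≠ 0) (h : px P = px T) : P ∈ K := by
  rcases eq_or_eq_neg_of_px_eq hP hT0 h with rfl | rfl
  · exact hT
  · exact K.neg_mem hT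

/-- the weak `x`-map of multiplication by `n`: the ladder fraction -/
theorem hasXMapW_nsmul [CharZero k] (W : Affine k) {n : ℕ} (hn : 1 ≤ n) :
    HasXMapW (nsmulAddMonoidHom (α := W.Point) n) (ladF W n) (ladG W n) (ladG W n) := by
  refine ⟨ladG_ne_zero W n hn, fun x y h hg => ⟨hg, ?_⟩⟩
  have hP : (Point.some x y h : W.Point) ≠ 0 := Point.some_ne_zero h
  have hnP : n • (Point.some x y h : W.Point) ≠ 0 := fun h0 =>
    hg (ladG_eval_eq_zero_of_smul_eq_zero hP hn h0)
  have hF := ladF_eval_eq hP hn hnP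
  obtain ⟨x', y', h', e⟩ := exists_some_of_ne_zero hnP
  rw [e, px_some, px_some] at hF
  have hx' : x' = (ladF W n).eval x / (ladG W n).eval x := by
    rw [hF, mul_div_assoc, div_self hg, mul_one]
  obtain ⟨h'', e'⟩ := some_congr_x hx' h'
  exact ⟨y', h'', by rw [nsmulAddMonoidHom_apply, e, e']⟩

/-- the composite of two homomorphisms with strong `x`-maps has a weak `x`-map, valid outside
the kernel -/
theorem hasXMapW_comp {W W₁ W₂ : Affine k} (φ : W.Point →+ W₁.Point)
    (ψ : W₁.Point →+ W₂.Point) {n d n' d' : k[X]} (hφ : HasXMap φ n d) (hψ : HasXMap ψ n' d')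
    (hfin : ((ψ.comp φ).ker : Set W.Point).Finite) :
    ∃ N D G : k[X], HasXMapW (ψ.comp φ) N D G ∧
      ∀ (x y : k) (h : W.Nonsingular x y),
        (Point.some x y h : W.Point) ∉ (ψ.comp φ).ker → G.eval x ≠ 0 := by
  classical
  set K := (ψ.comp φ).ker with hK
  set S : Finset W.Point := hfin.toFinset with hS
  set G : k[X] := ∏ T ∈ S.erase 0, (X - C (px T)) with hG
  have hG0 : G ≠ 0 := Finset.prod_ne_zero_iff.mpr fun T _ => X_sub_C_ne_zero _
  have hGeval : ∀ x : k, G.eval x = ∏ T ∈ S.erase 0, (x - px T) := by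
    intro x
    simp [hG, eval_prod]
  have key1 : ∀ (x y : k) (h : W.Nonsingular x y), G.eval x ≠ 0 →
      (Point.some x y h : W.Point) ∉ K := by
    intro x y h hg hPK
    apply hg
    rw [hGeval]
    refine Finset.prod_eq_zero (i := Point.some x y h) ?_ ?_
    · rw [Finset.mem_erase]
      exact ⟨Point.some_ne_zero h, (Set.Finite.mem_toFinset hfin).mpr hPK⟩
    · rw [px_some, sub_self]
  have key2 : ∀ (x y : k) (h : W.Nonsingular x y),
      (Point.some x y h : W.Point) ∉ K → G.eval x ≠ 0 := by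
    intro x y h hPK
    rw [hGeval]
    refine Finset.prod_ne_zero_iff.mpr fun T hT => ?_
    rw [Finset.mem_erase] at hT
    intro h0
    apply hPK
    refine mem_of_px_eq K (Point.some_ne_zero h) ((Set.Finite.mem_toFinset hfin).mp hT.2) hT.1 ?_
    rw [px_some]
    exact sub_eq_zero.mp h0
  set m := max n'.natDegree d'.natDegree with hm
  refine ⟨polyHom n' m n d, polyHom d' m n d, G, ⟨hG0, fun x y h hg => ?_⟩, key2⟩
  have hPK := key1 x y h hg
  have hPφ : (Point.some x y h : W.Point) ∉ φ.ker := by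
    intro h0
    apply hPK
    rw [hK, AddMonoidHom.mem_ker, AddMonoidHom.comp_apply, AddMonoidHom.mem_ker.mp h0, map_zero]
  obtain ⟨hd, y', h', e⟩ := hφ x y h hPφ
  have hPψ : (Point.some (n.eval x / d.eval x) y' h' : W₁.Point) ∉ ψ.ker := by
    intro h0
    apply hPK
    rw [hK, AddMonoidHom.mem_ker, AddMonoidHom.comp_apply, e]
    exact AddMonoidHom.mem_ker.mp h0
  obtain ⟨hd', y'', h'', e'⟩ := hψ _ y' h' hPψ
  obtain ⟨hD, hND⟩ := eval_polyHom_div n' d' (le_max_left _ _) (le_max_right _ _) n d hd hd'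
  obtain ⟨h''', e''⟩ := some_congr_x hND.symm h''
  exact ⟨hD, y'', h''', by rw [AddMonoidHom.comp_apply, e, e', e'']⟩

/-- the strong `x`-map of a Vélu isogeny -/
theorem hasXMap_velu (W : Affine k) (C : AddSubgroup W.Point)
    (hfin : (C : Set W.Point).Finite) (hx : VeluXFormula W C)
    (ψ : W.Point →+ (veluCurve W (C : Set W.Point)).Point) (hker : ψ.ker = C)
    (hψ : ∀ P : W.Point, P ∉ C → ∃ h, ψ P = .some (veluX W (C : Set W.Point) P)
          (veluY W (C : Set W.Point) P) h) :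
    ∃ n d : k[X], HasXMap ψ n d := by
  classical
  have hSfin : {Q : W.Point | Q ∈ (C : Set W.Point) ∧ Q ≠ 0}.Finite :=
    hfin.subset fun Q hQ => hQ.1
  set S : Finset W.Point := hSfin.toFinset with hS
  have hmemS : ∀ Q, Q ∈ S ↔ Q ∈ C ∧ Q ≠ 0 := fun Q => by
    rw [hS, Set.Finite.mem_toFinset]; exact Iff.rfl
  refine ⟨X * pfD S (fun Q => ptX Q) + Polynomial.C (1 / 2 : k) * pfN S (veluT W) (veluU W) (fun Q => ptX Q),
    pfD S (fun Q => ptX Q), fun x y h hP => ?_⟩
  have hPC : (Point.some x y h : W.Point) ∉ C := hker ▸ hP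
  have hxne : ∀ Q ∈ S, x ≠ ptX Q := by
    intro Q hQ hxQ
    rw [hmemS] at hQ
    apply hPC
    refine mem_of_px_eq C (Point.some_ne_zero h) hQ.1 hQ.2 ?_
    rw [px_some, ← ptX_eq_px]
    exact hxQ
  have hD := eval_pfD_ne_zero S (fun Q => ptX Q) hxne
  have hsum : (∑ᶠ (Q : W.Point) (_ : Q ∈ (C : Set W.Point) ∧ Q ≠ 0),
        (veluT W Q / (x - ptX Q) + veluU W Q / (x - ptX Q) ^ 2))
      = ∑ Q ∈ S, (veluT W Q / (x - ptX Q) + veluU W Q / (x - ptX Q) ^ 2) :=
    finsum_mem_eq_finite_toFinset_sum _ hSfin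
  have hX : veluX W (C : Set W.Point) (.some x y h)
      = (X * pfD S (fun Q => ptX Q)
          + Polynomial.C (1 / 2 : k) * pfN S (veluT W) (veluU W) (fun Q => ptX Q)).eval x
        / (pfD S (fun Q => ptX Q)).eval x := by
    rw [hx x y h hPC, hsum, sum_partialFractions S (veluT W) (veluU W) (fun Q => ptX Q) hxne]
    simp only [eval_add, eval_mul, eval_X, eval_C]
    field_simp
  obtain ⟨h', e⟩ := hψ _ hPC
  obtain ⟨h'', e'⟩ := some_congr_x hX h'
  exact ⟨hD, _, h'', by rw [e, e']⟩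

end Weak

end Fermat.Agent.ED
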